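/-
Cell A2 (inertia at q || N), piece "NodeOfFrob" (helper132).  Mathlib only.

Pure commutative algebra: a local ring `R` with two ideals `P₁ P₂` with `P₁ ⊓ P₂ = ⊥`
(two branches through the closed point), elements `s s'` of the maximal ideal such that
  * `s`  generates the maximal ideal modulo `P₁`  and `s' ∈ P₁ + (s ^ 2)`   (on the branch `V(P₁)`, `s` is a
    uniformiser and `s'` vanishes to order `≥ 2`: Frobenius relation `β^* = Frob ∘ α^*`),
  * `s'` generates the maximal ideal modulo `P₂`  and `s ∈ P₂ + (s' ^ 2)`   (same on the other branch),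
is a NODE: there are `x ∈ P₂`, `y ∈ P₁` with `P₂ = (x)`, `P₁ = (y)`, `𝔪 = (x, y)`, `x * y = 0`,
`x - s ∈ 𝔪 ^ 2`, `y - s' ∈ 𝔪 ^ 2`.

Application: `R` = local ring of the special fibre of the normal model of `X₀(qM)` at a point of
`C_∞ ∩ C_0`, `s = α^* u`, `s' = β^* u'` for uniformisers `u`, `u'` of the (smooth) special fibre of level `M`.
Neither the Kronecker congruence mod `q ^ 2` nor any count of supersingular points is needed.
-/
import Mathlib

set_option autoImplicit false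

namespace Fermat.Agent.A2.H132

open Ideal IsLocalRing

variable {R : Type*} [CommRing R]

/-- Key absorption step: if `𝔪 = P₁ + (s)` in a local ring and `x ≡ s * u mod P₁` with `u` a unit,
then `𝔪 = P₁ + (x)`. -/
theorem sup_span_eq_of_unit_mul [IsLocalRing R] {P : Ideal R} {s x u : R} (hu : IsUnit u)
    (hP : P ≤ maximalIdeal R) (hx : x ∈ maximalIdeal R)
    (hs : maximalIdeal R = P ⊔ span {s}) (hxs : x - s * u ∈ P) :
    maximalIdeal R = P ⊔ span {x} := by
  apply le_antisymm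
  · rw [hs]
    refine sup_le le_sup_left ?_
    rw [span_singleton_le_iff_mem]
    obtain ⟨v, hv⟩ := hu.exists_right_inv
    -- s = x * v - (x - s*u) * v
    have : s = x * v - (x - s * u) * v := by
      have : s * (u * v) = s := by rw [hv, mul_one]
      linear_combination -this
    rw [this]
    refine Ideal.sub_mem _ ?_ ?_
    · exact Ideal.mem_sup_right (Ideal.mul_mem_right _ _ (Ideal.mem_span_singleton_self x))
    · exact Ideal.mem_sup_left (Ideal.mul_mem_right _ _ hxs)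
  · refine sup_le hP ?_
    rw [span_singleton_le_iff_mem]
    exact hx

/-- If `P₁ ⊓ P₂ = ⊥`, `x ∈ P₂` and `𝔪 = P₁ + (x)` with `P₂ ≤ 𝔪`, then `P₂ = (x)`. -/
theorem eq_span_singleton_of_inf_eq_bot {M P₁ P₂ : Ideal R} {x : R}
    (hinf : P₁ ⊓ P₂ = ⊥) (hx : x ∈ P₂) (hP₂ : P₂ ≤ M) (hM : M = P₁ ⊔ span {x}) :
    P₂ = span {x} := by
  apply le_antisymm
  · intro z hz
    have hzM : z ∈ P₁ ⊔ span {x} := hM ▸ hP₂ hz
    obtain ⟨p, hp, w, hw, rfl⟩ := Submodule.mem_sup.1 hzM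
    have hwP₂ : w ∈ P₂ := by
      obtain ⟨r, rfl⟩ := Ideal.mem_span_singleton'.1 hw
      exact Ideal.mul_mem_left _ _ hx
    have hpP₂ : p ∈ P₂ := by
      have : p = (p + w) - w := by ring
      rw [this]
      exact Ideal.sub_mem _ hz hwP₂
    have hp0 : p ∈ P₁ ⊓ P₂ := ⟨hp, hpP₂⟩
    rw [hinf] at hp0
    have hp0' : p = 0 := by simpa using hp0
    rw [hp0', zero_add]
    exact hw
  · rw [span_singleton_le_iff_mem]
    exact hx

/-- **Node from Frobenius relations.**  See the header of this file. -/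
theorem exists_node_of_frob [IsLocalRing R] {P₁ P₂ : Ideal R} {s s' : R}
    (hinf : P₁ ⊓ P₂ = ⊥)
    (hP₁ : P₁ ≤ maximalIdeal R) (hP₂ : P₂ ≤ maximalIdeal R)
    (hs : maximalIdeal R = P₁ ⊔ span {s}) (hs' : maximalIdeal R = P₂ ⊔ span {s'})
    (h₁ : s' ∈ P₁ ⊔ span {s ^ 2}) (h₂ : s ∈ P₂ ⊔ span {s' ^ 2}) :
    ∃ x y : R, x ∈ P₂ ∧ y ∈ P₁ ∧ P₂ = span {x} ∧ P₁ = span {y} ∧
      maximalIdeal R = span {x, y} ∧ x * y = 0 ∧
      x - s ∈ maximalIdeal R ^ 2 ∧ y - s' ∈ maximalIdeal R ^ 2 := by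
  have hsm : s ∈ maximalIdeal R := by
    rw [hs]; exact Ideal.mem_sup_right (Ideal.mem_span_singleton_self s)
  have hs'm : s' ∈ maximalIdeal R := by
    rw [hs']; exact Ideal.mem_sup_right (Ideal.mem_span_singleton_self s')
  -- decompose
  obtain ⟨y, hy, w, hw, hyw⟩ := Submodule.mem_sup.1 h₁
  obtain ⟨b, rfl⟩ := Ideal.mem_span_singleton'.1 hw
  obtain ⟨x, hx, w', hw', hxw⟩ := Submodule.mem_sup.1 h₂
  obtain ⟨a, rfl⟩ := Ideal.mem_span_singleton'.1 hw'
  -- s' = y + b s^2, s = x + a s'^2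
  have hxm : x ∈ maximalIdeal R := hP₂ hx
  have hym : y ∈ maximalIdeal R := hP₁ hy
  -- x ≡ s * (1 - a b^2 s^3) mod P₁
  have hu : IsUnit (1 - a * b ^ 2 * s ^ 3) := by
    have hmem : a * b ^ 2 * s ^ 3 ∈ maximalIdeal R :=
      Ideal.mul_mem_left _ _ (Ideal.pow_mem_of_mem _ hsm 3 (by norm_num))
    have hnu : ¬ IsUnit (a * b ^ 2 * s ^ 3) := (IsLocalRing.mem_maximalIdeal _).1 hmem
    exact IsLocalRing.isUnit_one_sub_self_of_mem_nonunits _ hnu
  have hu' : IsUnit (1 - b * a ^ 2 * s' ^ 3) := by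
    have hmem : b * a ^ 2 * s' ^ 3 ∈ maximalIdeal R :=
      Ideal.mul_mem_left _ _ (Ideal.pow_mem_of_mem _ hs'm 3 (by norm_num))
    have hnu : ¬ IsUnit (b * a ^ 2 * s' ^ 3) := (IsLocalRing.mem_maximalIdeal _).1 hmem
    exact IsLocalRing.isUnit_one_sub_self_of_mem_nonunits _ hnu
  have hx1 : x - s * (1 - a * b ^ 2 * s ^ 3) ∈ P₁ := by
    -- x = s - a s'^2, s' = y + b s^2 ⇒ x - s(1 - a b² s³) = -a (s'^2 - b² s⁴) = -a y (s' + b s²)
    have : x - s * (1 - a * b ^ 2 * s ^ 3) = y * (-a * (s' + b * s ^ 2)) := by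
      have ex : x = s - a * s' ^ 2 := by rw [← hxw]; ring
      have ey : y = s' - b * s ^ 2 := by rw [← hyw]; ring
      rw [ex, ey]; ring
    rw [this]
    exact Ideal.mul_mem_right _ _ hy
  have hy1 : y - s' * (1 - b * a ^ 2 * s' ^ 3) ∈ P₂ := by
    have : y - s' * (1 - b * a ^ 2 * s' ^ 3) = x * (-b * (s + a * s' ^ 2)) := by
      have ex : x = s - a * s' ^ 2 := by rw [← hxw]; ring
      have ey : y = s' - b * s ^ 2 := by rw [← hyw]; ring
      rw [ex, ey]; ring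
    rw [this]
    exact Ideal.mul_mem_right _ _ hx
  have hmx : maximalIdeal R = P₁ ⊔ span {x} := sup_span_eq_of_unit_mul hu hP₁ hxm hs hx1
  have hmy : maximalIdeal R = P₂ ⊔ span {y} := sup_span_eq_of_unit_mul hu' hP₂ hym hs' hy1
  have hP₂x : P₂ = span {x} := eq_span_singleton_of_inf_eq_bot hinf hx hP₂ hmx
  have hP₁y : P₁ = span {y} :=
    eq_span_singleton_of_inf_eq_bot (by rwa [inf_comm]) hy hP₁ hmy
  refine ⟨x, y, hx, hy, hP₂x, hP₁y, ?_, ?_, ?_, ?_⟩
  · rw [hmx, hP₁y, Ideal.span_insert, sup_comm]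
  · have : x * y ∈ P₁ ⊓ P₂ := ⟨Ideal.mul_mem_left _ _ hy, Ideal.mul_mem_right _ _ hx⟩
    rw [hinf] at this
    simpa using this
  · have : x - s = -a * s' ^ 2 := by
      rw [← hxw]; ring
    rw [this]
    exact Ideal.mul_mem_left _ _ (Ideal.pow_mem_pow hs'm 2)
  · have : y - s' = -b * s ^ 2 := by
      rw [← hyw]; ring
    rw [this]
    exact Ideal.mul_mem_left _ _ (Ideal.pow_mem_pow hsm 2)

end Fermat.Agent.A2.H132
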