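/-
Cell A2, piece M5 (abstract part), helper132.  Mathlib only.

`O` = local ring of the normal two-chart model of `X₀(qM)` over a DVR at a closed point of the special
fibre, `I = (w)` (uniformiser), `P₁, P₂` = the primes of the two components `C_∞, C_0` through the point
(`P₁ ⊓ P₂ = I`: the special fibre is reduced, piece M2).

* `exists_node_of_kronecker` : CROSSING POINT.  `s = α^* H`, `s' = β^* H` with
  `s' - s ^ q ∈ P₁`, `s - s' ^ q ∈ P₂` (Kronecker congruences at `V_∞` and `V_0`), `s` a uniformiser of the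
  branch `O / P₁` and `s'` a uniformiser of the branch `O / P₂` (piece M4).  Then with
  `X := s - s' ^ q`, `Y := s' - s ^ q`:
     `P₂ = I + (X)`, `P₁ = I + (Y)`, `𝔪 = I + (X, Y)`, `X * Y ∈ I`.
  So the special fibre is an ORDINARY NODE there, with explicit coordinates defined over the
  unramified base.  No thickness, no supersingular theory.
* `smooth_of_not_le` : SMOOTH POINT.  If `P₂ = ⊤` (the second component does not pass through the point)
  then `P₁ = I` and `𝔪 = I + (s)`.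
* `exists_node_rel` : the general relative form of `exists_node_of_frob` (ideal `I` instead of `⊥`).
-/
import Mathlib.RingTheory.LocalRing.MaximalIdeal.Basic
import Mathlib.RingTheory.Ideal.Operations
import Mathlib.Tactic.LinearCombination
import Mathlib.Tactic.Ring
import Mathlib.Algebra.Ring.GeomSum
import Mathlib.Tactic.NormNum
import Mathlib.Tactic.Positivity
import Mathlib.Tactic.Linarith

set_option autoImplicit false

namespace Fermat.Agent.A2.H132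

open Ideal IsLocalRing

variable {R : Type*} [CommRing R]

/-- Relative absorption: if `𝔪 = P + (s)` and `x ≡ s * u mod P` with `u` a unit, then `𝔪 = P + (x)`. -/
theorem maximalIdeal_eq_sup_span_of_unit [IsLocalRing R] {P : Ideal R} {s x u : R} (hu : IsUnit u)
    (hP : P ≤ maximalIdeal R) (hx : x ∈ maximalIdeal R)
    (hs : maximalIdeal R = P ⊔ span {s}) (hxs : x - s * u ∈ P) :
    maximalIdeal R = P ⊔ span {x} := by
  apply le_antisymm
  · rw [hs]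
    refine sup_le le_sup_left ?_
    rw [span_singleton_le_iff_mem]
    obtain ⟨v, hv⟩ := hu.exists_right_inv
    have : s = x * v - (x - s * u) * v := by
      have : s * (u * v) = s := by rw [hv, mul_one]
      linear_combination -this
    rw [this]
    refine Ideal.sub_mem _ ?_ ?_
    · exact Ideal.mem_sup_right (Ideal.mul_mem_right _ _ (Ideal.mem_span_singleton_self x))
    · exact Ideal.mem_sup_left (Ideal.mul_mem_right _ _ hxs)
  · refine sup_le hP ?_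
    rw [span_singleton_le_iff_mem]
    exact hx

/-- If `P₁ ⊓ P₂ ≤ I ≤ P₂`, `x ∈ P₂`, `P₂ ≤ M = P₁ + (x)`, then `P₂ = I + (x)`. -/
theorem eq_sup_span_singleton_of_inf_le {M I P₁ P₂ : Ideal R} {x : R}
    (hinf : P₁ ⊓ P₂ ≤ I) (hI : I ≤ P₂) (hx : x ∈ P₂) (hP₂ : P₂ ≤ M) (hM : M = P₁ ⊔ span {x}) :
    P₂ = I ⊔ span {x} := by
  apply le_antisymm
  · intro z hz
    have hzM : z ∈ P₁ ⊔ span {x} := hM ▸ hP₂ hz
    obtain ⟨p, hp, w, hw, rfl⟩ := Submodule.mem_sup.1 hzM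
    have hwP₂ : w ∈ P₂ := by
      obtain ⟨r, rfl⟩ := Ideal.mem_span_singleton'.1 hw
      exact Ideal.mul_mem_left _ _ hx
    have hpP₂ : p ∈ P₂ := by
      have : p = (p + w) - w := by ring
      rw [this]
      exact Ideal.sub_mem _ hz hwP₂
    exact Submodule.add_mem_sup (hinf ⟨hp, hpP₂⟩) hw
  · refine sup_le hI ?_
    rw [span_singleton_le_iff_mem]
    exact hx

/-- **Relative node lemma.**  `P₁ ⊓ P₂ = I`; `s` generates `𝔪` modulo `P₁` and `s' ∈ P₁ + (s ^ 2)`;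
`s'` generates `𝔪` modulo `P₂` and `s ∈ P₂ + (s' ^ 2)`.  Then there are `x ∈ P₂`, `y ∈ P₁` with
`P₂ = I + (x)`, `P₁ = I + (y)`, `𝔪 = I + (x, y)`, `x * y ∈ I`, `x ≡ s`, `y ≡ s'` mod `𝔪 ^ 2`. -/
theorem exists_node_rel [IsLocalRing R] {I P₁ P₂ : Ideal R} {s s' : R}
    (hinf : P₁ ⊓ P₂ = I)
    (hP₁ : P₁ ≤ maximalIdeal R) (hP₂ : P₂ ≤ maximalIdeal R)
    (hs : maximalIdeal R = P₁ ⊔ span {s}) (hs' : maximalIdeal R = P₂ ⊔ span {s'})
    (h₁ : s' ∈ P₁ ⊔ span {s ^ 2}) (h₂ : s ∈ P₂ ⊔ span {s' ^ 2}) :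
    ∃ x y : R, x ∈ P₂ ∧ y ∈ P₁ ∧ P₂ = I ⊔ span {x} ∧ P₁ = I ⊔ span {y} ∧
      maximalIdeal R = I ⊔ span {x, y} ∧ x * y ∈ I ∧
      x - s ∈ maximalIdeal R ^ 2 ∧ y - s' ∈ maximalIdeal R ^ 2 := by
  have hsm : s ∈ maximalIdeal R := by
    rw [hs]; exact Ideal.mem_sup_right (Ideal.mem_span_singleton_self s)
  have hs'm : s' ∈ maximalIdeal R := by
    rw [hs']; exact Ideal.mem_sup_right (Ideal.mem_span_singleton_self s')
  obtain ⟨y, hy, w, hw, hyw⟩ := Submodule.mem_sup.1 h₁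
  obtain ⟨b, rfl⟩ := Ideal.mem_span_singleton'.1 hw
  obtain ⟨x, hx, w', hw', hxw⟩ := Submodule.mem_sup.1 h₂
  obtain ⟨a, rfl⟩ := Ideal.mem_span_singleton'.1 hw'
  have hxm : x ∈ maximalIdeal R := hP₂ hx
  have hym : y ∈ maximalIdeal R := hP₁ hy
  have hu : IsUnit (1 - a * b ^ 2 * s ^ 3) := by
    have hmem : a * b ^ 2 * s ^ 3 ∈ maximalIdeal R :=
      Ideal.mul_mem_left _ _ (Ideal.pow_mem_of_mem _ hsm 3 (by norm_num))
    have hnu : ¬ IsUnit (a * b ^ 2 * s ^ 3) := (IsLocalRing.mem_maximalIdeal _).1 hmem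
    exact IsLocalRing.isUnit_one_sub_self_of_mem_nonunits _ hnu
  have hu' : IsUnit (1 - b * a ^ 2 * s' ^ 3) := by
    have hmem : b * a ^ 2 * s' ^ 3 ∈ maximalIdeal R :=
      Ideal.mul_mem_left _ _ (Ideal.pow_mem_of_mem _ hs'm 3 (by norm_num))
    have hnu : ¬ IsUnit (b * a ^ 2 * s' ^ 3) := (IsLocalRing.mem_maximalIdeal _).1 hmem
    exact IsLocalRing.isUnit_one_sub_self_of_mem_nonunits _ hnu
  have ex : x = s - a * s' ^ 2 := by rw [← hxw]; ring
  have ey : y = s' - b * s ^ 2 := by rw [← hyw]; ring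
  have hx1 : x - s * (1 - a * b ^ 2 * s ^ 3) ∈ P₁ := by
    have : x - s * (1 - a * b ^ 2 * s ^ 3) = y * (-a * (s' + b * s ^ 2)) := by
      rw [ex, ey]; ring
    rw [this]
    exact Ideal.mul_mem_right _ _ hy
  have hy1 : y - s' * (1 - b * a ^ 2 * s' ^ 3) ∈ P₂ := by
    have : y - s' * (1 - b * a ^ 2 * s' ^ 3) = x * (-b * (s + a * s' ^ 2)) := by
      rw [ex, ey]; ring
    rw [this]
    exact Ideal.mul_mem_right _ _ hx
  have hmx : maximalIdeal R = P₁ ⊔ span {x} :=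
    maximalIdeal_eq_sup_span_of_unit hu hP₁ hxm hs hx1
  have hmy : maximalIdeal R = P₂ ⊔ span {y} :=
    maximalIdeal_eq_sup_span_of_unit hu' hP₂ hym hs' hy1
  have hI₁ : I ≤ P₁ := hinf ▸ inf_le_left
  have hI₂ : I ≤ P₂ := hinf ▸ inf_le_right
  have hP₂x : P₂ = I ⊔ span {x} :=
    eq_sup_span_singleton_of_inf_le hinf.le hI₂ hx hP₂ hmx
  have hP₁y : P₁ = I ⊔ span {y} :=
    eq_sup_span_singleton_of_inf_le (by rw [inf_comm]; exact hinf.le) hI₁ hy hP₁ hmy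
  refine ⟨x, y, hx, hy, hP₂x, hP₁y, ?_, ?_, ?_, ?_⟩
  · -- 𝔪 = P₁ ⊔ (x) = I ⊔ (y) ⊔ (x)
    have h3 : maximalIdeal R = (I ⊔ span {y}) ⊔ span {x} := by
      have h4 := hmx
      rw [hP₁y] at h4
      exact h4
    rw [h3, Ideal.span_insert, sup_assoc, sup_comm (span {y}) (span {x})]
  · rw [← hinf]
    exact ⟨Ideal.mul_mem_left _ _ hy, Ideal.mul_mem_right _ _ hx⟩
  · have : x - s = -a * s' ^ 2 := by rw [ex]; ring
    rw [this]
    exact Ideal.mul_mem_left _ _ (Ideal.pow_mem_pow hs'm 2)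
  · have : y - s' = -b * s ^ 2 := by rw [ey]; ring
    rw [this]
    exact Ideal.mul_mem_left _ _ (Ideal.pow_mem_pow hsm 2)

/-- **Crossing point = ordinary node, Kronecker form.**  `q ≥ 2`, `s' - s ^ q ∈ P₁`, `s - s' ^ q ∈ P₂`,
`𝔪 = P₁ + (s) = P₂ + (s')`, `P₁ ⊓ P₂ = I`.  Then the explicit elements
`X = s - s' ^ q`, `Y = s' - s ^ q` satisfy
`P₂ = I + (X)`, `P₁ = I + (Y)`, `𝔪 = I + (X, Y)`, `X * Y ∈ I`. -/
theorem exists_node_of_kronecker [IsLocalRing R] {I P₁ P₂ : Ideal R} {s s' : R} {q : ℕ} (hq : 2 ≤ q)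
    (hinf : P₁ ⊓ P₂ = I)
    (hP₁ : P₁ ≤ maximalIdeal R) (hP₂ : P₂ ≤ maximalIdeal R)
    (hs : maximalIdeal R = P₁ ⊔ span {s}) (hs' : maximalIdeal R = P₂ ⊔ span {s'})
    (h₁ : s' - s ^ q ∈ P₁) (h₂ : s - s' ^ q ∈ P₂) :
    P₂ = I ⊔ span {s - s' ^ q} ∧ P₁ = I ⊔ span {s' - s ^ q} ∧
      maximalIdeal R = I ⊔ span {s - s' ^ q, s' - s ^ q} ∧
      (s - s' ^ q) * (s' - s ^ q) ∈ I := by
  have hsm : s ∈ maximalIdeal R := by
    rw [hs]; exact Ideal.mem_sup_right (Ideal.mem_span_singleton_self s)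
  have hs'm : s' ∈ maximalIdeal R := by
    rw [hs']; exact Ideal.mem_sup_right (Ideal.mem_span_singleton_self s')
  obtain ⟨k, rfl⟩ : ∃ k, q = k + 2 := ⟨q - 2, by omega⟩
  set x := s - s' ^ (k + 2) with hxdef
  set y := s' - s ^ (k + 2) with hydef
  have hxm : x ∈ maximalIdeal R :=
    Ideal.sub_mem _ hsm (Ideal.pow_mem_of_mem _ hs'm _ (by omega))
  have hym : y ∈ maximalIdeal R :=
    Ideal.sub_mem _ hs'm (Ideal.pow_mem_of_mem _ hsm _ (by omega))
  -- s' ≡ s^q mod P₁, hence s'^q ≡ s^(q^2) mod P₁ and x ≡ s (1 - s^(q^2-1))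
  have hpow₁ : s' ^ (k + 2) - (s ^ (k + 2)) ^ (k + 2) ∈ P₁ := by
    obtain ⟨c, hc⟩ := sub_dvd_pow_sub_pow s' (s ^ (k + 2)) (k + 2)
    rw [hc]
    exact Ideal.mul_mem_right _ _ h₁
  have hpow₂ : s ^ (k + 2) - (s' ^ (k + 2)) ^ (k + 2) ∈ P₂ := by
    obtain ⟨c, hc⟩ := sub_dvd_pow_sub_pow s (s' ^ (k + 2)) (k + 2)
    rw [hc]
    exact Ideal.mul_mem_right _ _ h₂
  have hexp : (k + 2) * (k + 2) = ((k + 2) * (k + 2) - 1) + 1 := by
    have : 1 ≤ (k + 2) * (k + 2) := Nat.one_le_iff_ne_zero.2 (by positivity)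
    omega
  have hu : IsUnit (1 - s ^ ((k + 2) * (k + 2) - 1)) := by
    have hmem : s ^ ((k + 2) * (k + 2) - 1) ∈ maximalIdeal R :=
      Ideal.pow_mem_of_mem _ hsm _ (by
        have : 4 ≤ (k + 2) * (k + 2) := by nlinarith
        omega)
    exact IsLocalRing.isUnit_one_sub_self_of_mem_nonunits _
      ((IsLocalRing.mem_maximalIdeal _).1 hmem)
  have hu' : IsUnit (1 - s' ^ ((k + 2) * (k + 2) - 1)) := by
    have hmem : s' ^ ((k + 2) * (k + 2) - 1) ∈ maximalIdeal R :=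
      Ideal.pow_mem_of_mem _ hs'm _ (by
        have : 4 ≤ (k + 2) * (k + 2) := by nlinarith
        omega)
    exact IsLocalRing.isUnit_one_sub_self_of_mem_nonunits _
      ((IsLocalRing.mem_maximalIdeal _).1 hmem)
  have hx1 : x - s * (1 - s ^ ((k + 2) * (k + 2) - 1)) ∈ P₁ := by
    have : x - s * (1 - s ^ ((k + 2) * (k + 2) - 1))
        = -(s' ^ (k + 2) - (s ^ (k + 2)) ^ (k + 2)) := by
      have e : s * s ^ ((k + 2) * (k + 2) - 1) = (s ^ (k + 2)) ^ (k + 2) := by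
        rw [← pow_succ', ← hexp, pow_mul]
      rw [hxdef]
      linear_combination e
    rw [this]
    exact Ideal.neg_mem_iff _ |>.2 hpow₁
  have hy1 : y - s' * (1 - s' ^ ((k + 2) * (k + 2) - 1)) ∈ P₂ := by
    have : y - s' * (1 - s' ^ ((k + 2) * (k + 2) - 1))
        = -(s ^ (k + 2) - (s' ^ (k + 2)) ^ (k + 2)) := by
      have e : s' * s' ^ ((k + 2) * (k + 2) - 1) = (s' ^ (k + 2)) ^ (k + 2) := by
        rw [← pow_succ', ← hexp, pow_mul]
      rw [hydef]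
      linear_combination e
    rw [this]
    exact Ideal.neg_mem_iff _ |>.2 hpow₂
  have hmx : maximalIdeal R = P₁ ⊔ span {x} :=
    maximalIdeal_eq_sup_span_of_unit hu hP₁ hxm hs hx1
  have hmy : maximalIdeal R = P₂ ⊔ span {y} :=
    maximalIdeal_eq_sup_span_of_unit hu' hP₂ hym hs' hy1
  have hI₁ : I ≤ P₁ := hinf ▸ inf_le_left
  have hI₂ : I ≤ P₂ := hinf ▸ inf_le_right
  have hP₂x : P₂ = I ⊔ span {x} :=
    eq_sup_span_singleton_of_inf_le hinf.le hI₂ h₂ hP₂ hmx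
  have hP₁y : P₁ = I ⊔ span {y} :=
    eq_sup_span_singleton_of_inf_le (by rw [inf_comm]; exact hinf.le) hI₁ h₁ hP₁ hmy
  refine ⟨hP₂x, hP₁y, ?_, ?_⟩
  · have h3 : maximalIdeal R = (I ⊔ span {y}) ⊔ span {x} := by
      have h4 := hmx
      rw [hP₁y] at h4
      exact h4
    rw [h3, Ideal.span_insert, sup_assoc, sup_comm (span {y}) (span {x})]
  · rw [← hinf]
    exact ⟨Ideal.mul_mem_left _ _ h₁, Ideal.mul_mem_right _ _ h₂⟩

/-- **Smooth point.**  If the second component does not pass through the point (`P₂ = ⊤`), then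
`P₁ = I` and `𝔪 = I + (s)`. -/
theorem smooth_of_eq_top [IsLocalRing R] {I P₁ P₂ : Ideal R} {s : R}
    (hinf : P₁ ⊓ P₂ = I) (hP₂ : P₂ = ⊤)
    (hs : maximalIdeal R = P₁ ⊔ span {s}) :
    P₁ = I ∧ maximalIdeal R = I ⊔ span {s} := by
  have h : P₁ = I := by rw [← hinf, hP₂, inf_top_eq]
  exact ⟨h, h ▸ hs⟩

end Fermat.Agent.A2.H132
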